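import Mathlib
import Fermat.Prelude.Def_GroupCohomology_ContinuousUnramified
import Fermat.Agent.Frob.QbarInst
import Fermat.Agent.Frob.Exists
import Fermat.Agent.PTLocal.LGalKummer

/-!
# The maximal extension of `ℚ` unramified outside `S`, and the level system of `S`-extensions
-/

set_option autoImplicit false

open scoped Pointwise

namespace Fermat.Agent.PTGlob

open Fermat.Agent.PT Fermat.Agent.PTLocal

section inertia

variable {L : Type*} [Field L]

lemma mem_nonunits_iff' (A : ValuationSubring L) {x : L} :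
    x ∈ A.nonunits ↔ (x ≠ 0 → x⁻¹ ∉ A) := by
  rw [ValuationSubring.mem_nonunits_iff]
  rcases eq_or_ne x 0 with rfl | hx
  · simp
  · have h0 : A.valuation x ≠ 0 := (Valuation.ne_zero_iff _).2 hx
    rw [← ValuationSubring.valuation_le_one_iff, map_inv₀, not_le,
      one_lt_inv₀ (zero_lt_iff.2 h0)]
    exact ⟨fun h _ => h, fun h => h hx⟩

lemma smul_mem_nonunits_iff {G : Type*} [Group G] [MulSemiringAction G L] (g : G)
    (A : ValuationSubring L) {x : L} : x ∈ (g • A).nonunits ↔ g⁻¹ • x ∈ A.nonunits := by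
  rw [mem_nonunits_iff', mem_nonunits_iff',
    ValuationSubring.mem_pointwise_smul_iff_inv_smul_mem, smul_inv'']
  refine imp_congr_left (not_congr ?_)
  rw [smul_eq_zero_iff_eq]

variable [Algebra ℚ L]

lemma mem_inertia_iff {A : ValuationSubring L} {σ : L ≃ₐ[ℚ] L} :
    σ ∈ A.inertiaSubgroupIn ℚ ↔ σ • A = A ∧ ∀ x ∈ A, σ x - x ∈ A.nonunits := by
  constructor
  · rintro ⟨d, hd, rfl⟩
    refine ⟨d.2, fun x hx => ?_⟩
    have h1 : d ∈ MonoidHom.ker _ := hd
    rw [MonoidHom.mem_ker] at h1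
    have h2 := RingEquiv.congr_fun h1 (IsLocalRing.residue A ⟨x, hx⟩)
    have h3 : d • (IsLocalRing.residue A ⟨x, hx⟩) = IsLocalRing.residue A ⟨x, hx⟩ := h2
    rw [← IsLocalRing.ResidueField.residue_smul, ← sub_eq_zero, ← map_sub,
      IsLocalRing.residue_eq_zero_iff] at h3
    rw [ValuationSubring.mem_nonunits_iff_exists_mem_maximalIdeal]
    exact ⟨_, h3⟩
  · rintro ⟨h, hx⟩
    refine ⟨⟨σ, h⟩, ?_, rfl⟩
    show _ ∈ MonoidHom.ker _
    rw [MonoidHom.mem_ker]
    apply RingEquiv.ext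
    intro y
    obtain ⟨x, rfl⟩ := IsLocalRing.residue_surjective y
    show (⟨σ, h⟩ : A.decompositionSubgroup ℚ) • IsLocalRing.residue A x =
      IsLocalRing.residue A x
    rw [← IsLocalRing.ResidueField.residue_smul, ← sub_eq_zero, ← map_sub,
      IsLocalRing.residue_eq_zero_iff]
    have h1 := hx x x.2
    rw [ValuationSubring.mem_nonunits_iff_exists_mem_maximalIdeal] at h1
    obtain ⟨ha, h2⟩ := h1
    exact h2

lemma conj_mem_inertia {A : ValuationSubring L} {g : L ≃ₐ[ℚ] L} (hg : g ∈ A.inertiaSubgroupIn ℚ)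
    (σ : L ≃ₐ[ℚ] L) : σ * g * σ⁻¹ ∈ (σ • A).inertiaSubgroupIn ℚ := by
  rw [mem_inertia_iff] at hg ⊢
  refine ⟨by rw [mul_smul, inv_smul_smul, mul_smul, hg.1], fun x hx => ?_⟩
  rw [ValuationSubring.mem_pointwise_smul_iff_inv_smul_mem] at hx
  rw [smul_mem_nonunits_iff]
  have h1 := hg.2 _ hx
  have h2 : σ⁻¹ • ((σ * g * σ⁻¹) x - x) = g (σ⁻¹ • x) - σ⁻¹ • x := by
    rw [smul_sub]
    congr 1
    show (σ⁻¹ * (σ * g * σ⁻¹)) • x = (g * σ⁻¹) • x
    congr 1
    group
  rw [h2]
  exact h1

lemma liesOver_smul {A : ValuationSubring L} {q : ℕ} (h : A.LiesOverPrime q)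
    (σ : L ≃ₐ[ℚ] L) : (σ • A).LiesOverPrime q := by
  show (q : L) ∈ (σ • A).nonunits
  rw [smul_mem_nonunits_iff]
  have : σ⁻¹ • (q : L) = q := map_natCast (σ⁻¹) q
  rw [this]
  exact h

end inertia

/-- `ℚ̄` -/
abbrev Qb := AlgebraicClosure ℚ

/-- absolute Galois group -/
abbrev GQ := AlgebraicClosure ℚ ≃ₐ[ℚ] AlgebraicClosure ℚ

variable (S : Finset Nat.Primes)

-- the frozen algebra structure on `ℚ̄`, and the induced ones on subfields
attribute [-instance] DivisionRing.toRatAlgebra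
noncomputable local instance instAlgebraQb : Algebra ℚ (AlgebraicClosure ℚ) :=
  DivisionRing.toRatAlgebra

/-- the subgroup generated by the inertia groups outside `S` -/
noncomputable def inS : Subgroup GQ := Subgroup.closure {g | ∃ q : Nat.Primes, q ∉ S ∧
  ∃ A : ValuationSubring Qb, A.LiesOverPrime (q : ℕ) ∧ g ∈ A.inertiaSubgroupIn ℚ}

/-- the maximal extension of `ℚ` unramified outside `S` -/
noncomputable def OmS : IntermediateField ℚ Qb := IntermediateField.fixedField (inS S)

variable {S}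

lemma mem_OmS {x : Qb} : x ∈ OmS S ↔ ∀ q : Nat.Primes, q ∉ S → ∀ A : ValuationSubring Qb,
    A.LiesOverPrime (q : ℕ) → ∀ g ∈ A.inertiaSubgroupIn ℚ, g x = x := by
  unfold OmS
  rw [IntermediateField.mem_fixedField_iff]
  constructor
  · intro h q hq A hA g hg
    exact h g (Subgroup.subset_closure ⟨q, hq, A, hA, hg⟩)
  · intro h g hg
    induction hg using Subgroup.closure_induction with
    | mem g hg =>
      obtain ⟨q, hq, A, hA, hg⟩ := hg
      exact h q hq A hA g hg
    | one => rfl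
    | mul g g' _ _ hg hg' => rw [AlgEquiv.mul_apply, hg', hg]
    | inv g _ hg =>
      rw [AlgEquiv.aut_inv, AlgEquiv.symm_apply_eq, hg]

lemma smul_mem_OmS {x : Qb} (hx : x ∈ OmS S) (σ : GQ) : σ x ∈ OmS S := by
  rw [mem_OmS] at hx ⊢
  intro q hq A hA g hg
  have h1 := conj_mem_inertia hg σ⁻¹
  have h2 := hx q hq (σ⁻¹ • A) (liesOver_smul hA _) _ h1
  have h3 : g (σ x) = σ ((σ⁻¹ * g * σ⁻¹⁻¹) x) := by
    show (g * σ) x = (σ * (σ⁻¹ * g * σ⁻¹⁻¹)) x
    congr 1
    group
  rw [h3, h2]

instance normal_OmS : Normal ℚ (OmS S) := by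
  rw [IntermediateField.normal_iff_forall_map_le']
  rintro σ _ ⟨x, hx, rfl⟩
  exact smul_mem_OmS hx σ

instance isGalois_OmS : IsGalois ℚ (OmS S) := IsGalois.mk

lemma isUnramifiedOutside_iff {F : IntermediateField ℚ Qb} :
    F.IsUnramifiedOutside S ↔ FiniteDimensional ℚ F ∧ F ≤ OmS S := by
  refine and_congr_right fun _ => ?_
  constructor
  · intro h x hx
    rw [mem_OmS]
    intro q hq A hA g hg
    exact (IntermediateField.mem_fixingSubgroup_iff F g).1 (h q hq A hA hg) x hx
  · intro h q hq A hA g hg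
    rw [IntermediateField.mem_fixingSubgroup_iff]
    intro x hx
    exact mem_OmS.1 (h hx) q hq A hA g hg

lemma isUnramifiedOutside_normalClosure {F : IntermediateField ℚ Qb}
    (hF : F.IsUnramifiedOutside S) :
    (IntermediateField.normalClosure ℚ F Qb).IsUnramifiedOutside S := by
  rw [isUnramifiedOutside_iff] at hF ⊢
  have := hF.1
  exact ⟨inferInstance, IntermediateField.normalClosure_le_iff_of_normal.2 hF.2⟩

variable (S) in
/-- the levels of the Galois group `G_S` -/
def levS : Levels GQ where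
  carrier := {N | ∃ F : IntermediateField ℚ Qb, F.IsUnramifiedOutside S ∧ Normal ℚ F ∧
    N = F.fixingSubgroup}
  nonempty' := ⟨_, ⊥, IntermediateField.isUnramifiedOutside_bot S, inferInstance, rfl⟩
  directed' := by
    rintro _ ⟨F, hF, hn, rfl⟩ _ ⟨F', hF', hn', rfl⟩
    exact ⟨_, ⟨F ⊔ F', hF.sup hF', inferInstance, rfl⟩,
      IntermediateField.fixingSubgroup_antitone le_sup_left,
      IntermediateField.fixingSubgroup_antitone le_sup_right⟩
  normal' := by
    rintro _ ⟨F, hF, hn, rfl⟩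
    exact (InfiniteGalois.normal_iff_isGalois F).2 (IsGalois.mk)
  finiteIndex' := by
    rintro _ ⟨F, hF, hn, rfl⟩
    have := hF.1
    have := Subgroup.quotient_finite_of_isOpen F.fixingSubgroup
      (IntermediateField.fixingSubgroup_isOpen F)
    exact Subgroup.finiteIndex_of_finite_quotient

lemma mem_levS {N : Subgroup GQ} : N ∈ (levS S).carrier ↔
    ∃ F : IntermediateField ℚ Qb, F.IsUnramifiedOutside S ∧ Normal ℚ F ∧
    N = F.fixingSubgroup := Iff.rfl

lemma mem_levS_of {F : IntermediateField ℚ Qb} (hF : F.IsUnramifiedOutside S) :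
    ∃ N ∈ (levS S).carrier, N ≤ F.fixingSubgroup :=
  ⟨_, ⟨_, isUnramifiedOutside_normalClosure hF, inferInstance, rfl⟩,
    IntermediateField.fixingSubgroup_antitone (IntermediateField.le_normalClosure F)⟩

variable (S) in
/-- restriction to `ℚ_S` -/
noncomputable def jS : GQ →* (OmS S ≃ₐ[ℚ] OmS S) := AlgEquiv.restrictNormalHom (OmS S)

lemma jS_apply (g : GQ) (x : OmS S) : ((jS S g x : OmS S) : Qb) = g (x : Qb) :=
  AlgEquiv.restrictNormal_commutes g (OmS S) x

lemma jS_surjective : Function.Surjective (jS S) :=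
  AlgEquiv.restrictNormalHom_surjective Qb

variable (S) in
/-- the levels `levS` are of Galois type -/
noncomputable def lgS : LGal ℚ (OmS S) (levS S) where
  j := jS S
  ker_le := by
    rintro _ ⟨F, hF, hn, rfl⟩ g hg
    rw [IntermediateField.mem_fixingSubgroup_iff]
    intro x hx
    rw [isUnramifiedOutside_iff] at hF
    have h1 := jS_apply g (⟨x, hF.2 hx⟩ : OmS S)
    rw [hg] at h1
    exact h1.symm
  lev := by
    rintro _ ⟨F, hF, hn, rfl⟩
    rw [isUnramifiedOutside_iff] at hF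
    have := hF.1
    refine ⟨IntermediateField.restrict hF.2, ?_, fun σ hσ => ?_⟩
    · exact Module.Finite.equiv (IntermediateField.restrictAlgEquiv hF.2).toLinearEquiv
    · obtain ⟨g, rfl⟩ := jS_surjective σ
      refine ⟨g, ?_, rfl⟩
      rw [IntermediateField.mem_fixingSubgroup_iff] at hσ ⊢
      intro x hx
      have h1 := hσ ⟨x, hF.2 hx⟩ ((IntermediateField.mem_restrict hF.2 _).2 hx)
      rw [← jS_apply g (⟨x, hF.2 hx⟩ : OmS S), h1]
  cof F hF := by
    have h1 : (IntermediateField.lift F).IsUnramifiedOutside S := by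
      rw [isUnramifiedOutside_iff]
      refine ⟨?_, IntermediateField.lift_le F⟩
      exact Module.Finite.equiv (IntermediateField.liftAlgEquiv F).toLinearEquiv
    obtain ⟨N, hN, h⟩ := mem_levS_of h1
    refine ⟨N, hN, fun g hg => ?_⟩
    rw [IntermediateField.mem_fixingSubgroup_iff]
    intro x hx
    apply Subtype.ext
    rw [jS_apply]
    exact (IntermediateField.mem_fixingSubgroup_iff _ _).1 (h hg) _ ((IntermediateField.mem_lift _).2 hx)

end Fermat.Agent.PTGlob
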