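import Fermat.Agent.PTGlob.Omega
import Fermat.Agent.PTC.Levels

/-!
# `levS = sL`
-/

set_option autoImplicit false

namespace Fermat.Agent.PTGlob

open Fermat.Agent.PT Fermat.Agent.PTLocal

-- the frozen algebra structure on `ℚ̄`, and the induced ones on subfields
attribute [-instance] DivisionRing.toRatAlgebra
noncomputable local instance instAlgebraQb5 : Algebra ℚ (AlgebraicClosure ℚ) :=
  DivisionRing.toRatAlgebra

lemma levS_eq_sL (S : Finset Nat.Primes) : levS S = PTC.sL S := by
  have h : (levS S).carrier = (PTC.sL S).carrier := by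
    ext N
    constructor
    · intro hN
      obtain ⟨F, hF, hn, rfl⟩ := hN
      exact ⟨(levS S).normal' _ ⟨F, hF, hn, rfl⟩, F, hF, rfl⟩
    · rintro ⟨hn, F, hF, rfl⟩
      refine ⟨F, hF, ?_, rfl⟩
      have h1 := (InfiniteGalois.normal_iff_isGalois F).1 hn
      exact h1.to_normal
  cases hL : levS S
  cases hL' : PTC.sL S
  rw [hL, hL'] at h
  cases h
  rfl

/-- the levels `sL` are of Galois type for `ℚ_S` -/
noncomputable def lgSL (S : Finset Nat.Primes) : LGal ℚ (OmS S) (PTC.sL S) where
  j := jS S
  ker_le := by rw [← levS_eq_sL]; exact (lgS S).ker_le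
  lev := by rw [← levS_eq_sL]; exact (lgS S).lev
  cof := by rw [← levS_eq_sL]; exact (lgS S).cof

@[simp] lemma lgSL_j (S : Finset Nat.Primes) : (lgSL S).j = jS S := rfl

end Fermat.Agent.PTGlob
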