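import Fermat.Agent.PTLocal.LocHyp

/-!
# Conjugation acts trivially on cohomology; naturality of the cyclic coboundary
-/

set_option autoImplicit false

namespace Fermat.Agent.PTGlob

open Fermat.Agent.PT Fermat.Agent.PTLocal IntermediateField

section conj

variable {G : Type*} [Group G] {A : Type*} [AddCommGroup A]

/-- conjugation `(G, A) → (G, A)` -/
def conjPair (L : Levels G) (ρ : Act G A) (g : G) : PairHom L ρ L ρ where
  r :=
    { toFun := fun h => g⁻¹ * h * g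
      map_one' := by group
      map_mul' := fun a b => by group }
  f := ρ g
  lev N hN := ⟨N, hN, fun γ hγ => by
    have := (L.normal' N hN).conj_mem γ hγ g⁻¹
    simpa using this⟩
  comm h a := by
    show ρ g (ρ (g⁻¹ * h * g) a) = ρ h (ρ g a)
    rw [← act_mul, ← act_mul]
    congr 2
    group

lemma conjPair_r (L : Levels G) (ρ : Act G A) (g h : G) :
    (conjPair L ρ g).r h = g⁻¹ * h * g := rfl

lemma conj_h2 {L : Levels G} {ρ : Act G A} (g : G) (x : H2 L ρ) :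
    (conjPair L ρ g).h2 x = x := by
  obtain ⟨f, rfl⟩ := H2.mk_surjective _ _ x
  obtain ⟨hfL, hf⟩ := mem_Z2'.1 f.2
  symm
  rw [PairHom.h2_mk, ← sub_eq_zero, ← map_sub]
  refine H2.mk_eq_zero.2 ⟨fun h => (f : G → G → A) h g - (f : G → G → A) g (g⁻¹ * h * g), ?_, ?_⟩
  · obtain ⟨N, hN, hc⟩ := hfL
    refine ⟨N, hN, fun h s hs => ?_⟩
    have h1 := hc h g s hs 1 N.one_mem
    rw [mul_one] at h1
    have h2 := hc g (g⁻¹ * h * g) 1 N.one_mem (g⁻¹ * s * g) (by
      have := (L.normal' N hN).conj_mem s hs g⁻¹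
      simpa using this)
    rw [mul_one] at h2
    have h3 : g⁻¹ * h * g * (g⁻¹ * s * g) = g⁻¹ * (h * s) * g := by group
    rw [h3] at h2
    show (f : G → G → A) (h * s) g - (f : G → G → A) g (g⁻¹ * (h * s) * g) = _
    rw [h1, h2]
  · ext a b
    rw [d1_apply]
    show ρ a ((f : G → G → A) b g - (f : G → G → A) g (g⁻¹ * b * g)) -
      ((f : G → G → A) (a * b) g - (f : G → G → A) g (g⁻¹ * (a * b) * g)) +
      ((f : G → G → A) a g - (f : G → G → A) g (g⁻¹ * a * g)) =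
      (f : G → G → A) a b - ρ g ((f : G → G → A) (g⁻¹ * a * g) (g⁻¹ * b * g))
    have e1 := hf a b g
    have e2 := hf a g (g⁻¹ * b * g)
    have e3 := hf g (g⁻¹ * a * g) (g⁻¹ * b * g)
    have g1 : g * (g⁻¹ * b * g) = b * g := by group
    have g2 : g * (g⁻¹ * a * g) = a * g := by group
    have g3 : g⁻¹ * a * g * (g⁻¹ * b * g) = g⁻¹ * (a * b) * g := by group
    rw [g1] at e2
    rw [g2, g3] at e3
    rw [map_sub]
    have h1 : ρ a ((f : G → G → A) b g) = (f : G → G → A) (a * b) g + (f : G → G → A) a b -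
      (f : G → G → A) a (b * g) := by rw [e1]; abel
    have h2 : ρ a ((f : G → G → A) g (g⁻¹ * b * g)) = (f : G → G → A) (a * g) (g⁻¹ * b * g) +
      (f : G → G → A) a g - (f : G → G → A) a (b * g) := by rw [e2]; abel
    have h3 : ρ g ((f : G → G → A) (g⁻¹ * a * g) (g⁻¹ * b * g)) =
      (f : G → G → A) (a * g) (g⁻¹ * b * g) + (f : G → G → A) g (g⁻¹ * a * g) -
      (f : G → G → A) g (g⁻¹ * (a * b) * g) := by rw [e3]; abel
    rw [h1, h2, h3]
    abel

end conj

section cyc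

variable {p : ℕ} [hp : Fact p.Prime] {G Γ : Type*} [Group G] [Group Γ] {A B : Type*}
  [AddCommGroup A] [AddCommGroup B] {L : Levels G} {L' : Levels Γ} {ρ : Act G A} {σ : Act Γ B}

/-- pull back of a character -/
def chiPull (φ : PairHom L ρ L' σ) (χ : Chi p L) : Chi p L' :=
  ⟨fun γ => (χ : G → ZMod p) (φ.r γ), by
    rw [mem_Z1']
    refine ⟨φ.lc₁ χ.2.1, fun g h => ?_⟩
    rw [map_mul, chi_mul, trivAct_apply]⟩

lemma chiPull_apply (φ : PairHom L ρ L' σ) (χ : Chi p L) (γ : Γ) :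
    (chiPull φ χ : Γ → ZMod p) γ = (χ : G → ZMod p) (φ.r γ) := rfl

lemma cycδ_nat (φ : PairHom L ρ L' σ) (hρ : Smooth L ρ) (hσ : Smooth L' σ) (χ : Chi p L)
    (b : H0 ρ) : φ.h2 (cycδ hρ χ b) = cycδ hσ (chiPull φ χ) (φ.h0 b) := by
  rw [cycδ_apply, cycδ_apply, PairHom.h2_mk]
  congr 1
  apply Subtype.ext
  ext γ δ
  show φ.f (-(carry ((χ : G → ZMod p) (φ.r γ)) ((χ : G → ZMod p) (φ.r δ)) • (b : A))) =
    -(carry ((χ : G → ZMod p) (φ.r γ)) ((χ : G → ZMod p) (φ.r δ)) • φ.f (b : A))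
  rw [map_neg, map_zsmul]

end cyc

end Fermat.Agent.PTGlob
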