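import Mathlib
import Fermat.Agent.PTGlob.Omega
import Fermat.Agent.CFT6.Cyclo
import Fermat.Agent.ExtVan.LiftInertia
import Fermat.Prelude.Def_GaloisRep_CompletionBridge

/-!
# Unramified extensions and value groups
-/

set_option autoImplicit false

open scoped Pointwise NumberField

namespace Fermat.Agent.PTGlob

open Fermat.Agent.CFT Fermat.Agent.CFT6

section generic

variable {F : Type*} [Field F] [NumberField F] [IsGalois ℚ F] {q : Nat.Primes}

theorem ord_q_of_inertia (φ : Emb F q)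
    (h : ∀ τ : F ≃+* F, (∀ x : F, IsIntegral ℤ x → ‖φ (τ x) - φ x‖ < 1) → ∀ x, τ x = x) :
    ord (place φ) ((q : ℕ) : F) = 1 := by
  set P := (place φ).asIdeal with hP
  have hmax : P.IsMaximal := (place φ).isMaximal
  have hcard := Ideal.card_inertia_eq_ramificationIdxIn (G := Gal(F/ℚ)) (P.under ℤ) P
  rw [Ideal.ramificationIdxIn_eq_ramificationIdx (P.under ℤ) P Gal(F/ℚ)] at hcard
  have hsub : Subsingleton (P.inertia Gal(F/ℚ)) := by
    constructor
    rintro ⟨a, ha⟩ ⟨b, hb⟩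
    have key : ∀ a : Gal(F/ℚ), a ∈ P.inertia Gal(F/ℚ) → a = 1 := by
      intro a ha
      have h1 := h a.toRingEquiv (fun x hx => by
        let y : 𝓞 F := ⟨x, hx⟩
        have h2 : a • y - y ∈ P := ha y
        have h3 : ‖φ ((a • y - y : 𝓞 F) : F)‖ < 1 := h2
        rw [← map_sub]
        exact h3)
      ext x
      exact h1 x
    exact Subtype.ext ((key a ha).trans (key b hb).symm)
  have h1 : Ideal.ramificationIdx P ℤ = 1 := by
    rw [← hcard]
    exact Nat.card_of_subsingleton (1 : P.inertia Gal(F/ℚ))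
  have h0 : (Ideal.span {((q : ℕ) : ℤ)}).map (algebraMap ℤ (𝓞 F)) = Ideal.span {((q : ℕ) : 𝓞 F)} := by
    rw [Ideal.map_span, Set.image_singleton]; simp
  have hq0 : ((q : ℕ) : 𝓞 F) ≠ 0 := by exact_mod_cast q.2.ne_zero
  have hne : (Ideal.span {((q : ℕ) : ℤ)}).map (algebraMap ℤ (𝓞 F)) ≠ ⊥ := by
    rw [h0, Ne, Ideal.span_singleton_eq_bot]; exact hq0
  rw [Ideal.IsDedekindDomain.ramificationIdx_eq_multiplicity (Ideal.span {((q : ℕ) : ℤ)})
    (place φ).asIdeal hne, h0] at h1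
  have h2 := (place φ).intValuation_eq_exp_neg_multiplicity hq0
  rw [h1] at h2
  have h4 : ((q : ℕ) : F) = algebraMap (𝓞 F) F ((q : ℕ) : 𝓞 F) := by simp
  rw [ord, h4, (place φ).valuation_of_algebraMap, h2, WithZero.log_exp]
  simp

theorem norm_zpow_of_inertia (φ : Emb F q)
    (h : ∀ τ : F ≃+* F, (∀ x : F, IsIntegral ℤ x → ‖φ (τ x) - φ x‖ < 1) → ∀ x, τ x = x)
    {x : F} (hx : x ≠ 0) : ∃ n : ℤ, ‖φ x‖ = ((q : ℕ) : ℝ) ^ n := by
  have hqM : ((q : ℕ) : F) ≠ 0 := by exact_mod_cast q.2.ne_zero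
  have h5 := norm_eq_unif_zpow φ hqM
  rw [ord_q_of_inertia φ h, zpow_one, map_natCast, norm_natCast_q] at h5
  refine ⟨-ord (place φ) x, ?_⟩
  rw [norm_eq_unif_zpow φ hx, ← h5, inv_zpow, zpow_neg]

end generic

-- the frozen algebra structure on `ℚ̄`, and the induced ones on subfields
attribute [-instance] DivisionRing.toRatAlgebra
noncomputable local instance instAlgebraQb' : Algebra ℚ (AlgebraicClosure ℚ) :=
  DivisionRing.toRatAlgebra

variable {q : Nat.Primes}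

/-- the valuation ring of `ℚ̄` given by an embedding -/
noncomputable def valOf (Ψ : Emb Qb q) : ValuationSubring Qb := (padicIntegers (q : ℕ)).comap Ψ

lemma mem_valOf {Ψ : Emb Qb q} {x : Qb} : x ∈ valOf Ψ ↔ ‖Ψ x‖ ≤ 1 := by
  show Ψ x ∈ padicIntegers (q : ℕ) ↔ _
  rw [mem_padicIntegers_iff]
  exact_mod_cast Iff.rfl

lemma mem_nonunits_valOf {Ψ : Emb Qb q} {x : Qb} : x ∈ (valOf Ψ).nonunits ↔ ‖Ψ x‖ < 1 := by
  rw [mem_nonunits_iff']
  rcases eq_or_ne x 0 with rfl | hx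
  · simp
  · have h0 : 0 < ‖Ψ x‖ := norm_pos_iff.2 ((map_ne_zero Ψ).2 hx)
    rw [mem_valOf, map_inv₀, norm_inv, inv_le_one₀ h0, not_le]
    exact ⟨fun h => h hx, fun h _ => h⟩

lemma valOf_liesOver (Ψ : Emb Qb q) : (valOf Ψ).LiesOverPrime (q : ℕ) := by
  show ((q : ℕ) : Qb) ∈ (valOf Ψ).nonunits
  rw [mem_nonunits_valOf, map_natCast]
  exact norm_natCast_q_lt

lemma smul_valOf (Ψ : Emb Qb q) (g : GQ) :
    g • valOf Ψ = valOf (Ψ.comp ((g⁻¹ : GQ) : Qb →+* Qb)) := by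
  ext x
  rw [ValuationSubring.mem_pointwise_smul_iff_inv_smul_mem, mem_valOf, mem_valOf]
  rfl

/-- the standard embedding -/
noncomputable def e0 (q : Nat.Primes) : Emb Qb q := (padicEmbedding (q : ℕ) : Qb →+* Cq q)

lemma exists_valOf {A : ValuationSubring Qb} (hA : A.LiesOverPrime (q : ℕ)) :
    ∃ g : GQ, A = valOf ((e0 q).comp (g : Qb →+* Qb)) := by
  obtain ⟨σ, hσ⟩ := Frob.exists_smul_eq q.2 (valOf_liesOver (e0 q)) hA
  exact ⟨σ⁻¹, by rw [hσ, smul_valOf]⟩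

variable {S : Finset Nat.Primes}

/-- elements of `ℚ_S` have value in `q^ℤ` for `q ∉ S`. -/
theorem norm_zpow_of_mem_OmS {x : Qb} (hx : x ∈ OmS S) (hx0 : x ≠ 0) (hq : q ∉ S) (Ψ : Emb Qb q) :
    ∃ n : ℤ, ‖Ψ x‖ = ((q : ℕ) : ℝ) ^ n := by
  have h0 : FiniteDimensional ℚ (IntermediateField.adjoin ℚ {x}) :=
    IntermediateField.adjoin.finiteDimensional (Algebra.IsAlgebraic.isAlgebraic x).isIntegral
  set F := IntermediateField.normalClosure ℚ (IntermediateField.adjoin ℚ {x}) Qb with hF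
  have hfin : FiniteDimensional ℚ F := inferInstance
  have hn : Normal ℚ F := inferInstance
  have hxF : x ∈ F := IntermediateField.le_normalClosure _ (IntermediateField.mem_adjoin_simple_self ℚ x)
  have hle : F ≤ OmS S := by
    rw [hF, IntermediateField.normalClosure_le_iff_of_normal, IntermediateField.adjoin_le_iff]
    simpa using hx
  have : NumberField F := { to_charZero := inferInstance, to_finiteDimensional := hfin }
  have hgal : @IsGalois ℚ _ F _ DivisionRing.toRatAlgebra := IsGalois.mk (F := ℚ) (E := F)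
  have h1 := norm_zpow_of_inertia (F := F) (Ψ.comp (algebraMap F Qb)) (q := q) ?_
    (x := ⟨x, hxF⟩) (fun h => hx0 (congrArg Subtype.val h))
  · exact h1
  intro τ hτ x
  let τ' : F ≃ₐ[ℚ] F := AlgEquiv.ofRingEquiv (f := τ) (fun r => by
    rw [eq_ratCast (algebraMap ℚ F) r, map_ratCast])
  obtain ⟨σ₀, hσ₀⟩ := AlgEquiv.restrictNormalHom_surjective (F := ℚ) (K₁ := F) Qb τ'
  have hσ₀' : ∀ x : F, σ₀ (x : Qb) = (τ x : F) := by
    intro x
    have h2 := AlgEquiv.restrictNormal_commutes σ₀ F x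
    have h3 : σ₀.restrictNormal F = τ' := hσ₀
    rw [h3] at h2
    exact h2.symm
  obtain ⟨σ, hσ, hσF⟩ := ExtVan.exists_lift_inertia F (A := valOf Ψ) q.2 (valOf_liesOver Ψ) σ₀ (by
    intro y hy
    rw [Frob.mem_center_iff, mem_nonunits_valOf]
    have h2 := hτ ⟨(y : Qb), hy⟩ (by
      have := y.2
      exact (isIntegral_algebraMap_iff (algebraMap F Qb).injective).1 this)
    have h3 : Ψ ((σ₀ • y - y : integralClosure ℤ Qb) : Qb) = Ψ (σ₀ (y : Qb)) - Ψ (y : Qb) := by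
      rw [← map_sub]; rfl
    rw [h3, hσ₀' ⟨(y : Qb), hy⟩]
    exact h2)
  have h4 := mem_OmS.1 (hle x.2) q hq (valOf Ψ) (valOf_liesOver Ψ) σ hσ
  rw [hσF _ x.2, hσ₀'] at h4
  exact Subtype.ext h4

/-- a `p`-th root, with value in `q^ℤ` for all `q ∉ S`, of an element of `ℚ_S` lies in `ℚ_S`. -/
theorem mem_OmS_of_pow {p : ℕ} [hp : Fact p.Prime] (hpS : ∃ q ∈ S, (q : ℕ) = p) {y : Qb}
    (hy : y ^ p ∈ OmS S)
    (h : ∀ q : Nat.Primes, q ∉ S → ∀ Ψ : Emb Qb q, ∃ m : ℤ, ‖Ψ (y ^ p)‖ = ((q : ℕ) : ℝ) ^ ((p : ℤ) * m)) :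
    y ∈ OmS S := by
  rw [mem_OmS]
  intro q hq A hA g hg
  rcases eq_or_ne y 0 with rfl | hy0
  · exact map_zero g
  obtain ⟨g', rfl⟩ := exists_valOf hA
  set Ψ := (e0 q).comp (g' : Qb →+* Qb) with hΨ
  rw [mem_inertia_iff] at hg
  obtain ⟨m, hm⟩ := h q hq Ψ
  -- the norm of `y`
  have hq0 : (0 : ℝ) < ((q : ℕ) : ℝ) := by exact_mod_cast q.2.pos
  have hny : ‖Ψ y‖ = ((q : ℕ) : ℝ) ^ m := by
    rw [map_pow, norm_pow, mul_comm, zpow_mul, zpow_natCast] at hm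
    exact (pow_left_inj₀ (norm_nonneg _) (zpow_pos hq0 m).le hp.out.ne_zero).1 hm
  set z : Qb := y * ((q : ℕ) : Qb) ^ m with hz
  have hq0' : ((q : ℕ) : Qb) ≠ 0 := by exact_mod_cast q.2.ne_zero
  have hnz : ‖Ψ z‖ = 1 := by
    rw [hz, map_mul, norm_mul, hny, map_zpow₀, norm_zpow, map_natCast, norm_natCast_q, inv_zpow,
      mul_inv_cancel₀ (zpow_pos hq0 m).ne']
  have h1 := hg.2 z (mem_valOf.2 hnz.le)
  rw [mem_nonunits_valOf] at h1
  -- the root of unity `g z / z`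
  have hz0 : z ≠ 0 := mul_ne_zero hy0 (zpow_ne_zero _ hq0')
  have h2 : (g z / z) ^ p = 1 := by
    have h3 : g (y ^ p) = y ^ p := mem_OmS.1 hy q hq _ hA g (mem_inertia_iff.2 hg)
    rw [div_pow, ← map_pow, hz, mul_pow, map_mul, h3, ← zpow_natCast (((q : ℕ) : Qb) ^ m),
      ← zpow_mul, map_zpow₀, map_natCast, div_self]
    exact mul_ne_zero (pow_ne_zero _ hy0) (zpow_ne_zero _ hq0')
  have h4 : Ψ (g z / z) = 1 := by
    apply eq_one_of_close p (by rw [← map_pow, h2, map_one])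
    have hpne : ¬ (q : ℕ) ∣ p := by
      obtain ⟨r, hr, hrp⟩ := hpS
      intro hd
      rw [Nat.prime_dvd_prime_iff_eq q.2 hp.out] at hd
      exact hq (by rwa [← Subtype.ext (hrp.trans hd.symm)])
    rw [norm_natCast_eq_one hpne]
    apply pow_lt_one₀ (norm_nonneg _) _ (Nat.sub_ne_zero_of_lt hp.out.one_lt)
    have h5 : ‖1 - Ψ (g z / z)‖ = ‖Ψ (g z - z)‖ := by
      rw [← norm_neg, neg_sub, ← map_one Ψ, ← map_sub, ← mul_one ‖Ψ (g z / z - 1)‖, ← hnz,
        ← norm_mul, ← map_mul, sub_mul, div_mul_cancel₀ _ hz0, one_mul]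
    rw [h5]
    exact h1
  have h5 : g z / z = 1 := Ψ.injective (by rw [h4, map_one])
  rw [div_eq_one_iff_eq hz0, hz, map_mul, map_zpow₀, map_natCast] at h5
  exact mul_right_cancel₀ (zpow_ne_zero _ hq0') h5

end Fermat.Agent.PTGlob
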