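import Mathlib
import Fermat.Agent.PTGlob.Unr
import Fermat.Agent.CFT6.KSIndex

/-!
# Extensions of embeddings
-/

set_option autoImplicit false

open scoped Pointwise NumberField

namespace Fermat.Agent.PTGlob

open Fermat.Agent.CFT Fermat.Agent.CFT6

-- the frozen algebra structure on `ℚ̄`, and the induced ones on subfields
attribute [-instance] DivisionRing.toRatAlgebra
noncomputable local instance instAlgebraQb2 : Algebra ℚ (AlgebraicClosure ℚ) :=
  DivisionRing.toRatAlgebra

variable {q : Nat.Primes}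

/-- embeddings extend to `ℚ̄` -/
theorem exists_ext {K : Type*} [Field K] (ι : K →+* Qb) (φ : Emb K q) :
    ∃ Ψ : Emb Qb q, Ψ.comp ι = φ := by
  have : CharZero K := ⟨fun m n h => by
    have := congrArg ι h
    rw [map_natCast, map_natCast] at this
    exact_mod_cast this⟩
  let _ : Algebra ℚ K := DivisionRing.toRatAlgebra
  let _ : Algebra K Qb := ι.toAlgebra
  let _ : Algebra K (Cq q) := φ.toAlgebra
  have : IsScalarTower ℚ K Qb := IsScalarTower.of_algebraMap_eq' (Subsingleton.elim _ _)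
  have : Algebra.IsAlgebraic K Qb := Algebra.IsAlgebraic.tower_top (K := ℚ) K
  refine ⟨(IsAlgClosed.lift (R := K) (S := Qb) (M := Cq q) : Qb →ₐ[K] Cq q), ?_⟩
  ext x
  exact AlgHom.commutes (IsAlgClosed.lift (R := K) (S := Qb) (M := Cq q) : Qb →ₐ[K] Cq q) x

/-- two embeddings of `ℚ̄` differ by an automorphism -/
theorem exists_comp (Ψ Ψ' : Emb Qb q) : ∃ h : GQ, Ψ' = Ψ.comp (h : Qb →+* Qb) := by
  let _ : Algebra Qb (Cq q) := Ψ.toAlgebra
  let _ : Algebra ℚ (Cq q) := DivisionRing.toRatAlgebra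
  have : IsScalarTower ℚ Qb (Cq q) := IsScalarTower.of_algebraMap_eq' (Subsingleton.elim _ _)
  let ψ : Qb →ₐ[ℚ] Cq q := { Ψ' with
    commutes' := fun r => by
      show Ψ' (algebraMap ℚ Qb r) = _
      rw [eq_ratCast (algebraMap ℚ Qb) r, map_ratCast, eq_ratCast (algebraMap ℚ (Cq q)) r] }
  refine ⟨AlgHom.restrictNormal' ψ Qb, ?_⟩
  ext x
  exact (AlgHom.restrictNormal_commutes ψ Qb x).symm

end Fermat.Agent.PTGlob
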