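import Mathlib
import Fermat.Agent.PTGlob.Emb

/-!
# The relation between elements of `ℚ_S` and ideles
-/

set_option autoImplicit false

open scoped Pointwise NumberField

namespace Fermat.Agent.PTGlob

open Fermat.Agent.PT Fermat.Agent.PTLocal Fermat.Agent.CFT Fermat.Agent.CFT6

-- the frozen algebra structure on `ℚ̄`, and the induced ones on subfields
attribute [-instance] DivisionRing.toRatAlgebra
noncomputable local instance instAlgebraQb3 : Algebra ℚ (AlgebraicClosure ℚ) :=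
  DivisionRing.toRatAlgebra

section qidele

variable {K : Type*} [Field K]

/-- the idele with components powers of `q` -/
noncomputable def qIdele (k : ∀ q : Nat.Primes, Emb K q → ℤ)
    (hk : ∀ q (τ : Gq q) φ, k q (τ • φ) = k q φ)
    (hfin : {q | ∃ φ, k q φ ≠ 0}.Finite) : Idele K :=
  ⟨fun q φ => (Units.mk0 (((q : ℕ) : Cq q)⁻¹) (inv_ne_zero (by exact_mod_cast q.2.ne_zero))) ^ (k q φ), by
    constructor
    · intro q τ φ
      simp [hk]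
    · refine hfin.subset ?_
      rintro q ⟨φ, hφ⟩
      refine ⟨φ, fun h => hφ ?_⟩
      simp [h]⟩

lemma norm_qIdele (k : ∀ q : Nat.Primes, Emb K q → ℤ)
    (hk : ∀ q (τ : Gq q) φ, k q (τ • φ) = k q φ)
    (hfin : {q | ∃ φ, k q φ ≠ 0}.Finite) (q : Nat.Primes) (φ : Emb K q) :
    ‖((qIdele k hk hfin).1 q φ : Cq q)‖ = ((q : ℕ) : ℝ) ^ (k q φ) := by
  show ‖(((Units.mk0 (((q : ℕ) : Cq q)⁻¹) (inv_ne_zero (by exact_mod_cast q.2.ne_zero))) ^ (k q φ) :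
    (Cq q)ˣ) : Cq q)‖ = _
  rw [Units.val_zpow_eq_zpow_val, Units.val_mk0, norm_zpow, norm_inv, norm_natCast_q, inv_inv]

end qidele

lemma one_lt_q (q : Nat.Primes) : (1 : ℝ) < ((q : ℕ) : ℝ) := by exact_mod_cast q.2.one_lt

lemma q_pos (q : Nat.Primes) : (0 : ℝ) < ((q : ℕ) : ℝ) := by exact_mod_cast q.2.pos

lemma zpow_q_inj {q : Nat.Primes} {m n : ℤ} (h : ((q : ℕ) : ℝ) ^ m = ((q : ℕ) : ℝ) ^ n) : m = n :=
  zpow_right_injective₀ (q_pos q) (one_lt_q q).ne' h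

variable {S : Finset Nat.Primes} {p : ℕ} [hp : Fact p.Prime]
  {G' : Type*} [Group G'] {L' : Levels G'} (hG : LGal ℚ (OmS S) L')

instance numberField_E : NumberField hG.E :=
  { to_charZero := inferInstance
    to_finiteDimensional := hG.finiteDimensional_E }

/-- inclusion `K → ℚ̄` -/
noncomputable def ιE : hG.E →+* Qb := (algebraMap (OmS S) Qb).comp (algebraMap hG.E (OmS S))

/-- norm of the image of an element of `ℚ_S` -/
noncomputable def nrm {q : Nat.Primes} (Ψ : Emb Qb q) (y : (OmS S)ˣ) : ℝ := ‖Ψ ((y : OmS S) : Qb)‖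

lemma nrm_mul {q : Nat.Primes} (Ψ : Emb Qb q) (y z : (OmS S)ˣ) :
    nrm Ψ (y * z) = nrm Ψ y * nrm Ψ z := by
  unfold nrm
  rw [Units.val_mul, ← norm_mul, ← map_mul]
  rfl

@[simp] lemma nrm_one {q : Nat.Primes} (Ψ : Emb Qb q) : nrm Ψ (1 : (OmS S)ˣ) = 1 := by
  unfold nrm
  simp

lemma nrm_pos {q : Nat.Primes} (Ψ : Emb Qb q) (y : (OmS S)ˣ) : 0 < nrm Ψ y := by
  unfold nrm
  apply norm_pos_iff.2
  rw [map_ne_zero]
  intro h
  exact y.ne_zero (Subtype.ext h)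

lemma nrm_inv {q : Nat.Primes} (Ψ : Emb Qb q) (y : (OmS S)ˣ) :
    nrm Ψ y⁻¹ = (nrm Ψ y)⁻¹ := by
  have h := nrm_mul Ψ y y⁻¹
  rw [mul_inv_cancel, nrm_one] at h
  exact eq_inv_of_mul_eq_one_right h.symm

lemma nrm_pow {q : Nat.Primes} (Ψ : Emb Qb q) (y : (OmS S)ˣ) (n : ℕ) :
    nrm Ψ (y ^ n) = nrm Ψ y ^ n := by
  induction n with
  | zero => simp
  | succ n ih => rw [pow_succ, nrm_mul, ih, pow_succ]

lemma nrm_zpow {q : Nat.Primes} (hq : q ∉ S) (Ψ : Emb Qb q) (y : (OmS S)ˣ) :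
    ∃ n : ℤ, nrm Ψ y = ((q : ℕ) : ℝ) ^ n :=
  norm_zpow_of_mem_OmS (y : OmS S).2 (fun h => y.ne_zero (Subtype.ext h)) hq Ψ

variable (p) in
/-- `y` and `f` have the same value modulo `p` outside `S` -/
def Rel (y : (OmS S)ˣ) (f : Idele hG.E) : Prop :=
  ∀ q ∉ S, ∀ Ψ : Emb Qb q, ∃ m : ℤ,
    nrm Ψ y = ‖(f.1 q (Ψ.comp (ιE hG)) : Cq q)‖ * ((q : ℕ) : ℝ) ^ ((p : ℤ) * m)

variable {hG}

omit hp in
lemma Rel.mul {y z : (OmS S)ˣ} {f g : Idele hG.E} (h : Rel p hG y f) (h' : Rel p hG z g) :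
    Rel p hG (y * z) (f * g) := by
  intro q hq Ψ
  obtain ⟨m, hm⟩ := h q hq Ψ
  obtain ⟨n, hn⟩ := h' q hq Ψ
  refine ⟨m + n, ?_⟩
  rw [nrm_mul, hm, hn, mul_add, zpow_add₀ (q_pos q).ne']
  have : (((f * g : Idele hG.E)).1 q (Ψ.comp (ιE hG)) : Cq q) =
    (f.1 q (Ψ.comp (ιE hG)) : Cq q) * (g.1 q (Ψ.comp (ιE hG)) : Cq q) := rfl
  rw [this, norm_mul]
  ring

omit hp in
lemma Rel.one : Rel p hG 1 1 := by
  intro q hq Ψ
  refine ⟨0, ?_⟩
  have : ((1 : Idele hG.E).1 q (Ψ.comp (ιE hG)) : Cq q) = 1 := rfl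
  rw [this]; simp

omit hp in
lemma Rel.inv {y : (OmS S)ˣ} {f : Idele hG.E} (h : Rel p hG y f) : Rel p hG y⁻¹ f⁻¹ := by
  intro q hq Ψ
  obtain ⟨m, hm⟩ := h q hq Ψ
  refine ⟨-m, ?_⟩
  have : ((f⁻¹ : Idele hG.E).1 q (Ψ.comp (ιE hG)) : Cq q) = (f.1 q (Ψ.comp (ιE hG)) : Cq q)⁻¹ := by
    rw [← Units.val_inv_eq_inv_val]; rfl
  rw [nrm_inv, hm, this, norm_inv, mul_neg, zpow_neg, mul_inv]

omit hp in
lemma Rel.div {y z : (OmS S)ˣ} {f g : Idele hG.E} (h : Rel p hG y f) (h' : Rel p hG z g) :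
    Rel p hG (y / z) (f / g) := by
  rw [div_eq_mul_inv, div_eq_mul_inv]
  exact h.mul h'.inv

omit hp in
lemma Rel.pow {y : (OmS S)ˣ} {f : Idele hG.E} (h : Rel p hG y f) (n : ℕ) :
    Rel p hG (y ^ n) (f ^ n) := by
  induction n with
  | zero => simpa using Rel.one
  | succ n ih => rw [pow_succ, pow_succ]; exact ih.mul h

omit hp in
lemma Rel.zpow {y : (OmS S)ˣ} {f : Idele hG.E} (h : Rel p hG y f) (n : ℤ) :
    Rel p hG (y ^ n) (f ^ n) := by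
  cases n with
  | ofNat n => simpa using h.pow n
  | negSucc n => rw [zpow_negSucc, zpow_negSucc]; exact (h.pow _).inv

omit hp in
lemma rel_pow_left (c : (OmS S)ˣ) : Rel p hG (c ^ p) 1 := by
  intro q hq Ψ
  obtain ⟨n, hn⟩ := nrm_zpow hq Ψ c
  refine ⟨n, ?_⟩
  have : ((1 : Idele hG.E).1 q (Ψ.comp (ιE hG)) : Cq q) = 1 := rfl
  rw [this, nrm_pow, hn, norm_one, one_mul, ← zpow_natCast, ← zpow_mul, mul_comm]

/-- ideles outside `S` have values in `q^ℤ` -/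
lemma norm_idele_zpow (f : Idele hG.E) {q : Nat.Primes} (hq : q ∉ S) (φ : Emb hG.E q) :
    ∃ n : ℤ, ‖(f.1 q φ : Cq q)‖ = ((q : ℕ) : ℝ) ^ n := by
  obtain ⟨x, hx0, hx⟩ := exists_norm_eq_idele f q φ
  obtain ⟨Ψ, hΨ⟩ := exists_ext (ιE hG) φ
  obtain ⟨n, hn⟩ := norm_zpow_of_mem_OmS (S := S) (x := ιE hG x) ((algebraMap hG.E (OmS S) x).2)
    ((map_ne_zero _).2 hx0) hq Ψ
  refine ⟨n, ?_⟩
  rw [← hx, ← hn, ← hΨ]
  rfl

omit hp in
lemma rel_pow_right (f : Idele hG.E) : Rel p hG 1 (f ^ p) := by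
  intro q hq Ψ
  obtain ⟨n, hn⟩ := norm_idele_zpow f hq (Ψ.comp (ιE hG))
  refine ⟨-n, ?_⟩
  have : ((f ^ p : Idele hG.E).1 q (Ψ.comp (ιE hG)) : Cq q) =
      (f.1 q (Ψ.comp (ιE hG)) : Cq q) ^ p := by
    rw [← Units.val_pow_eq_pow_val]; rfl
  rw [this, nrm_one, norm_pow, hn, ← zpow_natCast, ← zpow_mul, mul_comm n, ← zpow_add₀ (q_pos q).ne']
  simp

variable (hG) in
/-- elements of `K` as elements of `Ωˣ` -/
noncomputable def incE : hG.Eˣ →* (OmS S)ˣ := Units.map (algebraMap hG.E (OmS S) : hG.E →* OmS S)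

omit hp in
lemma rel_princ (x : hG.Eˣ) : Rel p hG (incE hG x) (princ hG.E x) := by
  intro q hq Ψ
  refine ⟨0, ?_⟩
  rw [princ_apply]
  simp only [mul_zero, zpow_zero, mul_one]
  rfl

end Fermat.Agent.PTGlob
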