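import Mathlib
import Fermat.Agent.PTGlob.Rel

/-!
# The relation between elements of `ℚ_S` and ideles: existence and uniqueness
-/

set_option autoImplicit false

open scoped Pointwise NumberField

namespace Fermat.Agent.PTGlob

open Fermat.Agent.PT Fermat.Agent.PTLocal Fermat.Agent.CFT Fermat.Agent.CFT6

-- the frozen algebra structure on `ℚ̄`, and the induced ones on subfields
attribute [-instance] DivisionRing.toRatAlgebra
noncomputable local instance instAlgebraQb4 : Algebra ℚ (AlgebraicClosure ℚ) :=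
  DivisionRing.toRatAlgebra

variable {S : Finset Nat.Primes} {p : ℕ} [hp : Fact p.Prime]
  {G' : Type*} [Group G'] {L' : Levels G'} {hG : LGal ℚ (OmS S) L'}

variable (hG) in
/-- action on units -/
noncomputable def uact (g : G') : (OmS S)ˣ →* (OmS S)ˣ := Units.map (hG.j g : OmS S →* OmS S)

/-- `Rel y 1` implies that `y` is a `p`-th power. -/
theorem rel_one_left (hpS : ∃ q ∈ S, (q : ℕ) = p) {y : (OmS S)ˣ} (h : Rel p hG y 1) :
    ∃ c : (OmS S)ˣ, c ^ p = y := by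
  obtain ⟨z, hz⟩ := IsAlgClosed.exists_pow_nat_eq (((y : OmS S) : Qb)) hp.out.pos
  have hzS : z ∈ OmS S := by
    apply mem_OmS_of_pow hpS (by rw [hz]; exact (y : OmS S).2)
    intro q hq Ψ
    obtain ⟨m, hm⟩ := h q hq Ψ
    refine ⟨m, ?_⟩
    have h1 : ((1 : Idele hG.E).1 q (Ψ.comp (ιE hG)) : Cq q) = 1 := rfl
    rw [h1, norm_one, one_mul] at hm
    rw [hz, ← hm]
    rfl
  have hz0 : (⟨z, hzS⟩ : OmS S) ≠ 0 := by
    intro h0
    have h1 : z = 0 := congrArg Subtype.val h0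
    rw [h1, zero_pow hp.out.ne_zero] at hz
    exact y.ne_zero (Subtype.ext hz.symm)
  refine ⟨Units.mk0 _ hz0, ?_⟩
  apply Units.ext
  apply Subtype.ext
  exact hz

/-- roots of `p`-power order of elements with suitable values -/
lemma mem_OmS_of_pow_pow (hpS : ∃ q ∈ S, (q : ℕ) = p) (k : ℕ) {z : Qb} (hz : z ^ (p ^ k) ∈ OmS S)
    (h : ∀ q : Nat.Primes, q ∉ S → ∀ Ψ : Emb Qb q, ∃ m : ℤ, ‖Ψ z‖ = ((q : ℕ) : ℝ) ^ m) :
    z ∈ OmS S := by
  induction k generalizing z with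
  | zero => simpa using hz
  | succ k ih =>
    have h1 : z ^ p ∈ OmS S := by
      apply ih (by rw [← pow_mul, ← pow_succ']; exact hz)
      intro q hq Ψ
      obtain ⟨m, hm⟩ := h q hq Ψ
      exact ⟨m * p, by rw [map_pow, norm_pow, hm, zpow_mul, zpow_natCast]⟩
    apply mem_OmS_of_pow hpS h1
    intro q hq Ψ
    obtain ⟨m, hm⟩ := h q hq Ψ
    exact ⟨m, by rw [map_pow, norm_pow, hm, mul_comm, zpow_mul, zpow_natCast]⟩

/-- every idele comes from an element of `ℚ_S` -/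
theorem exists_rel_left (hpS : ∃ q ∈ S, (q : ℕ) = p) (f : Idele hG.E) :
    ∃ y : (OmS S)ˣ, Rel p hG y f := by
  obtain ⟨k, m, hm, hN⟩ := Nat.exists_eq_pow_mul_and_not_dvd (n := (princUnit hG.E).index)
    princUnit_index_ne_zero p hp.out.ne_one
  have h1 : f ^ (princUnit hG.E).index ∈ princUnit hG.E := Subgroup.pow_index_mem _ f
  rw [hN] at h1
  obtain ⟨_, ⟨x, rfl⟩, u, hu, hxu⟩ := Subgroup.mem_sup.1 h1
  rw [mem_unitIdele] at hu
  set f' := f ^ m with hf'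
  have hval : ∀ q (φ : Emb hG.E q), ‖(f'.1 q φ : Cq q)‖ ^ (p ^ k) = ‖φ (x : hG.E)‖ := by
    intro q φ
    have h2 : f' ^ (p ^ k) = princ hG.E x * u := by
      rw [hxu, hf', ← pow_mul, mul_comm m]
    have h3 : ((f' ^ (p ^ k) : Idele hG.E).1 q φ : Cq q) = (f'.1 q φ : Cq q) ^ (p ^ k) := by
      rw [← Units.val_pow_eq_pow_val]; rfl
    rw [← norm_pow, ← h3, h2]
    have h4 : ((princ hG.E x * u : Idele hG.E).1 q φ : Cq q) = φ (x : hG.E) * (u.1 q φ : Cq q) := rfl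
    rw [h4, norm_mul, hu q φ, mul_one]
  obtain ⟨z, hz⟩ := IsAlgClosed.exists_pow_nat_eq (ιE hG x) (pow_pos hp.out.pos k)
  have hzn : ∀ q, ∀ Ψ : Emb Qb q, ‖Ψ z‖ = ‖(f'.1 q (Ψ.comp (ιE hG)) : Cq q)‖ := by
    intro q Ψ
    have h2 := hval q (Ψ.comp (ιE hG))
    have h3 : (Ψ.comp (ιE hG)) (x : hG.E) = Ψ z ^ (p ^ k) := by
      rw [← map_pow, hz]; rfl
    rw [h3, norm_pow] at h2
    exact ((pow_left_inj₀ (norm_nonneg _) (norm_nonneg _) (pow_pos hp.out.pos k).ne').1 h2).symm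
  have hzS : z ∈ OmS S := by
    apply mem_OmS_of_pow_pow hpS k (by rw [hz]; exact (algebraMap hG.E (OmS S) x).2)
    intro q hq Ψ
    rw [hzn]
    exact norm_idele_zpow f' hq _
  have hz0 : (⟨z, hzS⟩ : OmS S) ≠ 0 := by
    intro h0
    have h1 : z = 0 := congrArg Subtype.val h0
    rw [h1, zero_pow (pow_pos hp.out.pos k).ne'] at hz
    exact x.ne_zero ((map_eq_zero _).1 hz.symm)
  have hrel : Rel p hG (Units.mk0 _ hz0) f' := by
    intro q hq Ψ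
    refine ⟨0, ?_⟩
    simp only [mul_zero, zpow_zero, mul_one]
    exact hzn q Ψ
  -- Bezout
  have hcop : (m : ℤ).gcd p = 1 := by
    rw [Int.gcd_natCast_natCast]
    exact Nat.Coprime.symm ((Nat.Prime.coprime_iff_not_dvd hp.out).2 hm)
  have hbez := Int.gcd_eq_gcd_ab m p
  rw [hcop] at hbez
  set a := Int.gcdA m p
  set b := Int.gcdB m p
  refine ⟨(Units.mk0 _ hz0) ^ a, ?_⟩
  have h5 : f = f' ^ a * (f ^ b) ^ p := by
    rw [hf', ← zpow_natCast, ← zpow_natCast, ← zpow_mul, ← zpow_mul, ← zpow_add, mul_comm b, ← hbez]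
    simp
  have h6 := (hrel.zpow a).mul (rel_pow_right (p := p) (f ^ b))
  rw [mul_one, ← h5] at h6
  exact h6

/-- the group acts on embeddings -/
lemma nrm_uact (g : G') {q : Nat.Primes} (Ψ : Emb Qb q) :
    ∃ Ψ' : Emb Qb q, Ψ'.comp (ιE hG) = Ψ.comp (ιE hG) ∧ ∀ y, nrm Ψ (uact hG g y) = nrm Ψ' y := by
  obtain ⟨h, hh⟩ := jS_surjective (S := S) (hG.j g)
  refine ⟨Ψ.comp (h : Qb →+* Qb), ?_, fun y => ?_⟩
  · ext x
    show Ψ (h ((x : OmS S) : Qb)) = Ψ ((x : OmS S) : Qb)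
    rw [← jS_apply, hh, hG.mem_E.1 x.2 g]
  · unfold nrm
    show ‖Ψ ((hG.j g y : OmS S) : Qb)‖ = ‖Ψ (h ((y : OmS S) : Qb))‖
    rw [← hh, jS_apply]

/-- embeddings over the same place differ by an element of the group -/
lemma exists_uact {q : Nat.Primes} {Ψ Ψ' : Emb Qb q} (h : Ψ'.comp (ιE hG) = Ψ.comp (ιE hG)) :
    ∃ g : G', ∀ y, nrm Ψ' y = nrm Ψ (uact hG g y) := by
  obtain ⟨τ, rfl⟩ := exists_comp Ψ Ψ'
  have h1 : ∀ x ∈ hG.E, jS S τ x = x := by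
    intro x hx
    apply Subtype.ext
    rw [jS_apply]
    exact Ψ.injective (RingHom.congr_fun h ⟨x, hx⟩)
  obtain ⟨g, hg⟩ := hG.exists_of_fix _ h1
  refine ⟨g, fun y => ?_⟩
  unfold nrm
  show ‖Ψ (τ ((y : OmS S) : Qb))‖ = ‖Ψ ((hG.j g y : OmS S) : Qb)‖
  rw [hg, jS_apply]

omit hp in
lemma Rel.uact {y : (OmS S)ˣ} {f : Idele hG.E} (h : Rel p hG y f) (g : G') :
    Rel p hG (uact hG g y) f := by
  intro q hq Ψ
  obtain ⟨Ψ', h1, h2⟩ := nrm_uact g Ψ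
  obtain ⟨m, hm⟩ := h q hq Ψ'
  exact ⟨m, by rw [h2, hm, h1]⟩

/-- conversely, `G'`-invariance modulo `p`-th powers gives an idele -/
theorem exists_rel_right {y : (OmS S)ˣ} (hy : ∀ g, ∃ c : (OmS S)ˣ, uact hG g y = y * c ^ p) :
    ∃ f : Idele hG.E, Rel p hG y f := by
  classical
  have hp0 : (p : ℤ) ≠ 0 := by exact_mod_cast hp.out.ne_zero
  have key : ∀ q, ∀ φ : Emb hG.E q, ∃ k : ℤ, 0 ≤ k ∧ k < p ∧ (q ∈ S → k = 0) ∧
      (q ∉ S → ∀ Ψ : Emb Qb q, Ψ.comp (ιE hG) = φ →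
        ∃ m : ℤ, nrm Ψ y = ((q : ℕ) : ℝ) ^ (k + p * m)) := by
    intro q φ
    by_cases hq : q ∈ S
    · exact ⟨0, le_rfl, by exact_mod_cast hp.out.pos, fun _ => rfl, fun h => absurd hq h⟩
    · obtain ⟨Ψ, hΨ⟩ := exists_ext (ιE hG) φ
      obtain ⟨n, hn⟩ := nrm_zpow hq Ψ y
      refine ⟨n % p, Int.emod_nonneg _ hp0, Int.emod_lt_of_pos _ (by exact_mod_cast hp.out.pos),
        fun h => absurd h hq, fun _ Ψ' hΨ' => ?_⟩
      obtain ⟨g, hg⟩ := exists_uact (hG := hG) (Ψ := Ψ) (Ψ' := Ψ') (hΨ'.trans hΨ.symm)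
      obtain ⟨c, hc⟩ := hy g
      obtain ⟨m, hm⟩ := nrm_zpow hq Ψ c
      refine ⟨n / p + m, ?_⟩
      rw [hg, hc, nrm_mul, nrm_pow, hn, hm, ← zpow_natCast, ← zpow_mul,
        ← zpow_add₀ (q_pos q).ne']
      congr 1
      have := Int.emod_add_mul_ediv n p
      linarith
  choose k hk0 hkp hkS hk using key
  have huniq : ∀ {a b : ℤ}, 0 ≤ a → a < p → 0 ≤ b → b < p → (∃ m, a = b + p * m) → a = b := by
    rintro a b ha0 hap hb0 hbp ⟨m, hm⟩
    have h1 : a % p = b % p := by rw [hm, Int.add_mul_emod_self_left]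
    rwa [Int.emod_eq_of_lt ha0 hap, Int.emod_eq_of_lt hb0 hbp] at h1
  have hinv : ∀ q (τ : Gq q) φ, k q (τ • φ) = k q φ := by
    intro q τ φ
    by_cases hq : q ∈ S
    · rw [hkS q _ hq, hkS q _ hq]
    · obtain ⟨Ψ, hΨ⟩ := exists_ext (ιE hG) φ
      obtain ⟨m, hm⟩ := hk q φ hq Ψ hΨ
      obtain ⟨m', hm'⟩ := hk q (τ • φ) hq (τ • Ψ) (by rw [smul_emb_comp, hΨ])
      have h1 : nrm (τ • Ψ) y = nrm Ψ y := norm_gq τ _
      rw [h1, hm] at hm'
      have h2 := zpow_q_inj hm'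
      exact huniq (hk0 _ _) (hkp _ _) (hk0 _ _) (hkp _ _) ⟨m - m', by linarith⟩
  have hfin : {q | ∃ φ, k q φ ≠ 0}.Finite := by
    let F := IntermediateField.adjoin ℚ {((y : OmS S) : Qb)}
    have h0 : FiniteDimensional ℚ F :=
      IntermediateField.adjoin.finiteDimensional (Algebra.IsAlgebraic.isAlgebraic _).isIntegral
    have : NumberField F := { to_charZero := inferInstance, to_finiteDimensional := h0 }
    have hy0 : (⟨((y : OmS S) : Qb), IntermediateField.mem_adjoin_simple_self ℚ _⟩ : F) ≠ 0 := by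
      intro h
      have h1 : ((y : OmS S) : Qb) = 0 := congrArg (fun z : F => (z : Qb)) h
      exact y.ne_zero (Subtype.ext h1)
    refine (finite_setOf_norm_ne_one (Units.mk0 _ hy0)).subset ?_
    rintro q ⟨φ, hφ⟩
    have hq : q ∉ S := fun h => hφ (hkS q φ h)
    obtain ⟨Ψ, hΨ⟩ := exists_ext (ιE hG) φ
    refine ⟨Ψ.comp (algebraMap F Qb), fun h => hφ ?_⟩
    have h1 : nrm Ψ y = 1 := h
    obtain ⟨m, hm⟩ := hk q φ hq Ψ hΨ
    rw [h1, ← zpow_zero ((q : ℕ) : ℝ)] at hm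
    have h2 := zpow_q_inj hm
    exact huniq (hk0 _ _) (hkp _ _) le_rfl (by exact_mod_cast hp.out.pos) ⟨-m, by linarith⟩
  refine ⟨qIdele k hinv hfin, fun q hq Ψ => ?_⟩
  obtain ⟨m, hm⟩ := hk q _ hq Ψ rfl
  refine ⟨m, ?_⟩
  rw [norm_qIdele, hm, zpow_add₀ (q_pos q).ne']

/-- ideles related to `1` -/
theorem rel_one_right {f : Idele hG.E} (h : Rel p hG 1 f) :
    f ∈ BS hG.E S ⊔ (powMonoidHom p : Idele hG.E →* Idele hG.E).range := by
  classical
  have key : ∀ q, ∀ φ : Emb hG.E q, ∃ k : ℤ, (q ∈ S → k = 0) ∧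
      (q ∉ S → ‖(f.1 q φ : Cq q)‖ = ((q : ℕ) : ℝ) ^ ((p : ℤ) * k)) := by
    intro q φ
    by_cases hq : q ∈ S
    · exact ⟨0, fun _ => rfl, fun h => absurd hq h⟩
    · obtain ⟨Ψ, rfl⟩ := exists_ext (ιE hG) φ
      obtain ⟨m, hm⟩ := h q hq Ψ
      refine ⟨-m, fun h => absurd h hq, fun _ => ?_⟩
      rw [nrm_one] at hm
      rw [mul_neg, zpow_neg]
      exact eq_inv_of_mul_eq_one_left hm.symm
  choose k hkS hk using key
  have hp0 : (p : ℤ) ≠ 0 := by exact_mod_cast hp.out.ne_zero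
  have hinv : ∀ q (τ : Gq q) φ, k q (τ • φ) = k q φ := by
    intro q τ φ
    by_cases hq : q ∈ S
    · rw [hkS q _ hq, hkS q _ hq]
    · have h1 := hk q φ hq
      have h2 := hk q (τ • φ) hq
      rw [f.2.1 q τ φ, norm_gq, h1] at h2
      exact (mul_left_cancel₀ hp0 (zpow_q_inj h2)).symm
  have hfin : {q | ∃ φ, k q φ ≠ 0}.Finite := by
    refine f.2.2.subset ?_
    rintro q ⟨φ, hφ⟩
    have hq : q ∉ S := fun h => hφ (hkS q φ h)
    refine ⟨φ, fun h => hφ ?_⟩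
    have h1 := hk q φ hq
    rw [h, ← zpow_zero ((q : ℕ) : ℝ)] at h1
    have h2 := zpow_q_inj h1
    exact (mul_eq_zero.1 h2.symm).resolve_left hp0
  rw [Subgroup.mem_sup]
  refine ⟨f / (qIdele k hinv hfin) ^ p, ?_, (qIdele k hinv hfin) ^ p, ⟨_, rfl⟩, by simp⟩
  rw [mem_BS']
  intro q hq φ
  have h1 : ((f / (qIdele k hinv hfin) ^ p : Idele hG.E).1 q φ : Cq q) =
      (f.1 q φ : Cq q) / ((qIdele k hinv hfin).1 q φ : Cq q) ^ p := by
    have h : ∀ a b : (Cq q)ˣ, ((a / b ^ p : (Cq q)ˣ) : Cq q) = (a : Cq q) / (b : Cq q) ^ p := by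
      intro a b; simp
    exact h _ _
  rw [h1, norm_div, norm_pow, norm_qIdele, hk q φ hq, mul_comm, zpow_mul, zpow_natCast, div_self]
  exact pow_ne_zero _ (zpow_ne_zero _ (q_pos q).ne')

end Fermat.Agent.PTGlob
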