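import Mathlib
import Fermat.Agent.PTGlob.Rel2

/-!
# Kummer counts over `ℚ_S`
-/

set_option autoImplicit false

open scoped Pointwise NumberField

namespace Fermat.Agent.PTGlob

open Fermat.Agent.PT Fermat.Agent.PTLocal Fermat.Agent.CFT Fermat.Agent.CFT6

-- the frozen algebra structure on `ℚ̄`, and the induced ones on subfields
attribute [-instance] DivisionRing.toRatAlgebra
noncomputable local instance instAlgebraQb6 : Algebra ℚ (AlgebraicClosure ℚ) :=
  DivisionRing.toRatAlgebra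

section gen

variable {G : Type*} [Group G] {A : Type*} [AddCommGroup A]

/-- action on the multiples of `p` -/
def pAct (p : ℕ) (ρ : Act G A) : Act G (nsmulAddMonoidHom p : A →+ A).range where
  toFun g := ((ρ g).comp (nsmulAddMonoidHom p : A →+ A).range.subtype).codRestrict _ (by
    rintro ⟨_, ⟨a, rfl⟩⟩
    refine ⟨ρ g a, ?_⟩
    show p • ρ g a = ρ g (p • a)
    rw [map_nsmul])
  map_one' := by
    ext a
    show ρ 1 a = a
    rw [act_one]
  map_mul' g h := by
    ext a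
    show ρ (g * h) a = ρ g (ρ h a)
    rw [act_mul]

lemma pAct_coe (p : ℕ) (ρ : Act G A) (g : G) (a : (nsmulAddMonoidHom p : A →+ A).range) :
    ((pAct p ρ g a : (nsmulAddMonoidHom p : A →+ A).range) : A) = ρ g a := rfl

/-- the inclusion of multiples of `p` -/
def pInc (p : ℕ) (ρ : Act G A) : EHom (pAct p ρ) ρ :=
  ⟨(nsmulAddMonoidHom p : A →+ A).range.subtype, fun _ _ => rfl⟩

/-- multiplication by `p` onto its image -/
def pMul (p : ℕ) (ρ : Act G A) : EHom ρ (pAct p ρ) :=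
  ⟨(nsmulAddMonoidHom p : A →+ A).rangeRestrict, fun g a => by
    apply Subtype.ext
    show p • ρ g a = ρ g (p • a)
    rw [map_nsmul]⟩

end gen

variable {S : Finset Nat.Primes} {p : ℕ} [hp : Fact p.Prime]
  {G' : Type*} [Group G'] {L' : Levels G'} (hG : LGal ℚ (OmS S) L') {ζ : OmS S}
  (hζ : IsPrimitiveRoot ζ p) (hfix : ∀ g, hG.j g ζ = ζ)

/-- inclusion of `ZMod p` in units -/
noncomputable def muI : EHom (trivAct G' (ZMod p)) hG.act where
  f := zetaHom hζ
  comm := fun g a => by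
    rw [trivAct_apply]
    apply Additive.toMul.injective
    apply Units.ext
    show _ = hG.j g (Additive.toMul (zetaHom hζ a) : (OmS S)ˣ)
    rw [zetaHom_apply, map_pow, hfix]

/-- the Kummer sequence `0 → μ_p → Ωˣ → (Ωˣ)^p → 0` -/
noncomputable def kumS : SES (trivAct G' (ZMod p)) hG.act (pAct p hG.act) where
  i := muI hG hζ hfix
  p := pMul p hG.act
  inj := zetaHom_injective hζ
  surj := AddMonoidHom.rangeRestrict_surjective _
  exact b := by
    constructor
    · intro h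
      have h1 : ((Additive.toMul b : (OmS S)ˣ) : OmS S) ^ p = 1 := by
        have h2 : p • b = 0 := congrArg Subtype.val h
        have h3 := congrArg (fun a => ((Additive.toMul a : (OmS S)ˣ) : OmS S)) h2
        simpa [toMul_nsmul] using h3
      obtain ⟨i, hi, hi2⟩ := hζ.eq_pow_of_pow_eq_one h1
      refine ⟨(i : ZMod p), ?_⟩
      apply Additive.toMul.injective
      apply Units.ext
      show ((Additive.toMul (zetaHom hζ (i : ZMod p)) : (OmS S)ˣ) : OmS S) = _
      rw [zetaHom_apply, ZMod.val_natCast_of_lt hi, hi2]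
    · rintro ⟨a, rfl⟩
      apply Subtype.ext
      show p • zetaHom hζ a = 0
      rw [← map_nsmul, nsmul_eq_mul, CharP.cast_eq_zero, zero_mul, map_zero]

variable (p) in
/-- the action on `Ωˣ/p` -/
noncomputable def qAct : Act G' (Additive (OmS S)ˣ ⧸ (pInc p hG.act).f.range) :=
  quotAct hG.act (pInc p hG.act).f.range (by
      rintro g _ ⟨a, rfl⟩; exact ⟨pAct p hG.act g a, rfl⟩)

variable (p) in
/-- the sequence `0 → (Ωˣ)^p → Ωˣ → Ωˣ/p → 0` -/
noncomputable def quoS : SES (pAct p hG.act) hG.act (qAct p hG) :=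
  SES.ofInj (pInc p hG.act) Subtype.val_injective

lemma kumS_δ0_surj : Function.Surjective ((kumS hG hζ hfix).δ0 hG.smooth) := by
  intro x
  exact ((kumS hG hζ hfix).exact_H1_left hG.smooth x).1 (hG.h90 _)

lemma kumS_δ1_inj : Function.Injective ((kumS hG hζ hfix).δ1 hG.smooth) := by
  rw [injective_iff_map_eq_zero]
  intro x hx
  obtain ⟨y, rfl⟩ := ((kumS hG hζ hfix).exact_H1_right hG.smooth x).1 hx
  rw [hG.h90 y, map_zero]

omit hp in
lemma quoS_δ0_surj : Function.Surjective ((quoS p hG).δ0 hG.smooth) := by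
  intro x
  exact ((quoS p hG).exact_H1_left hG.smooth x).1 (hG.h90 _)

/-! ### `H¹` -/

lemma toMul_act (g : G') (a : Additive (OmS S)ˣ) :
    Additive.toMul (hG.act g a) = uact hG g (Additive.toMul a) := rfl

lemma uact_incE (g : G') (x : hG.Eˣ) : uact hG g (incE hG x) = incE hG x := by
  apply Units.ext
  exact hG.mem_E.1 (x : hG.E).2 g

/-- elements fixed by the group come from `E` -/
lemma exists_incE {y : (OmS S)ˣ} (h : ∀ g, uact hG g y = y) : ∃ x : hG.Eˣ, incE hG x = y := by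
  have h1 : ∀ g, hG.j g (y : OmS S) = y := fun g => congrArg Units.val (h g)
  have h2 : (⟨_, hG.mem_E.2 h1⟩ : hG.E) ≠ 0 := by
    intro h0
    exact y.ne_zero (congrArg Subtype.val h0)
  exact ⟨Units.mk0 _ h2, Units.ext rfl⟩

lemma incE_injective : Function.Injective (incE hG) :=
  Units.map_injective (algebraMap hG.E (OmS S)).injective

/-- elements of `K_S` are `p`-th powers in `ℚ_S` -/
lemma exists_pow_of_KS (hpS : ∃ q ∈ S, (q : ℕ) = p) {x : hG.Eˣ} (hx : x ∈ KS hG.E p S) :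
    ∃ c : (OmS S)ˣ, c ^ p = incE hG x := by
  apply rel_one_left (hG := hG) hpS
  intro q hq Ψ
  obtain ⟨u, hu, hxu⟩ := hx q hq (Ψ.comp (ιE hG))
  obtain ⟨y, hy0, hy⟩ := exists_norm_eq (Ψ.comp (ιE hG)) (y := (u : Cq q))
    (fun τ hτ => hu τ (RingHom.ext hτ)) u.ne_zero
  obtain ⟨n, hn⟩ := nrm_zpow hq Ψ (incE hG (Units.mk0 y hy0))
  refine ⟨n, ?_⟩
  have h1 : ((1 : Idele hG.E).1 q (Ψ.comp (ιE hG)) : Cq q) = 1 := rfl
  have h2 : nrm Ψ (incE hG x) = ‖(Ψ.comp (ιE hG)) (x : hG.E)‖ := rfl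
  have h3 : nrm Ψ (incE hG (Units.mk0 y hy0)) = ‖(Ψ.comp (ιE hG)) y‖ := rfl
  rw [h1, norm_one, one_mul, h2, hxu, ← hy, ← h3, hn, mul_comm, zpow_mul, zpow_natCast]

omit hp in
lemma mem_KS_of_pow {x : hG.Eˣ} {c : (OmS S)ˣ} (hc : c ^ p = incE hG x) : x ∈ KS hG.E p S := by
  intro q hq φ
  obtain ⟨Ψ, rfl⟩ := exists_ext (ιE hG) φ
  obtain ⟨n, hn⟩ := nrm_zpow hq Ψ c
  refine ⟨(Units.mk0 (((q : ℕ) : Cq q)⁻¹) (inv_ne_zero (by exact_mod_cast q.2.ne_zero))) ^ n, ?_, ?_⟩
  · intro τ _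
    simp
  · have h2 : nrm Ψ (incE hG x) = ‖(Ψ.comp (ιE hG)) (x : hG.E)‖ := rfl
    rw [← h2, ← hc, nrm_pow, hn]
    congr 1
    rw [Units.val_zpow_eq_zpow_val, Units.val_mk0, norm_zpow, norm_inv, norm_natCast_q, inv_inv]

/-- `K_S → H⁰(Ω^p)` -/
noncomputable def kapS (hpS : ∃ q ∈ S, (q : ℕ) = p) :
    Additive (KS hG.E p S) →+ H0 (pAct p hG.act) where
  toFun x := ⟨⟨Additive.ofMul (incE hG (Additive.toMul x : KS hG.E p S)), by
    obtain ⟨c, hc⟩ := exists_pow_of_KS hG hpS (Additive.toMul x : KS hG.E p S).2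
    exact ⟨Additive.ofMul c, by rw [← hc]; rfl⟩⟩, by
    rw [mem_H0]
    intro g
    apply Subtype.ext
    rw [pAct_coe]
    apply Additive.toMul.injective
    exact uact_incE hG g _⟩
  map_zero' := by
    apply Subtype.ext
    apply Subtype.ext
    apply Additive.toMul.injective
    exact map_one (incE hG)
  map_add' x y := by
    apply Subtype.ext
    apply Subtype.ext
    apply Additive.toMul.injective
    exact map_mul (incE hG) _ _

lemma kapS_coe (hpS : ∃ q ∈ S, (q : ℕ) = p) (x : Additive (KS hG.E p S)) :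
    Additive.toMul (((kapS hG hpS x : H0 (pAct p hG.act)) : (nsmulAddMonoidHom p :
      Additive (OmS S)ˣ →+ Additive (OmS S)ˣ).range) : Additive (OmS S)ˣ) =
      incE hG (Additive.toMul x : KS hG.E p S) := rfl

lemma kapS_surjective (hpS : ∃ q ∈ S, (q : ℕ) = p) : Function.Surjective (kapS hG hpS) := by
  rintro ⟨⟨a, ha⟩, hinv⟩
  rw [mem_H0] at hinv
  obtain ⟨x, hx⟩ := exists_incE hG (y := Additive.toMul a) (fun g => by
    have h1 := congrArg (fun b => ((b : (nsmulAddMonoidHom p :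
      Additive (OmS S)ˣ →+ Additive (OmS S)ˣ).range) : Additive (OmS S)ˣ)) (hinv g)
    exact congrArg Additive.toMul h1)
  obtain ⟨c, hc⟩ := ha
  have hxK : x ∈ KS hG.E p S := by
    apply mem_KS_of_pow hG (c := Additive.toMul c)
    rw [hx, ← hc]
    rfl
  refine ⟨Additive.ofMul ⟨x, hxK⟩, ?_⟩
  apply Subtype.ext
  apply Subtype.ext
  apply Additive.toMul.injective
  exact hx

include hζ hfix in
theorem card_H1_trivAct (hpS : ∃ q ∈ S, (q : ℕ) = p) :
    Nat.card (H1 L' (trivAct G' (ZMod p))) =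
      (powMonoidHom p : hG.Eˣ →* hG.Eˣ).range.relIndex (KS hG.E p S) := by
  have hs := kumS_δ0_surj hG hζ hfix
  have h1 : Nat.card (H1 L' (trivAct G' (ZMod p))) =
      ((kumS hG hζ hfix).δ0 hG.smooth).ker.index := by
    rw [AddSubgroup.index_ker]
    rw [AddMonoidHom.range_eq_top.2 hs, AddSubgroup.card_top]
  rw [h1, ← AddSubgroup.index_comap_of_surjective _ (kapS_surjective hG hpS), Subgroup.relIndex,
    ← Subgroup.index_toAddSubgroup]
  congr 1
  ext x
  rw [AddSubgroup.mem_comap, AddMonoidHom.mem_ker, (kumS hG hζ hfix).exact_H0_right hG.smooth]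
  constructor
  · rintro ⟨y, hy⟩
    obtain ⟨z, hz⟩ := exists_incE hG (y := Additive.toMul (y : Additive (OmS S)ˣ)) (fun g => by
      exact congrArg Additive.toMul (mem_H0.1 y.2 g))
    show ((Additive.toMul x : KS hG.E p S) : hG.Eˣ) ∈ (powMonoidHom p : hG.Eˣ →* hG.Eˣ).range
    refine ⟨z, ?_⟩
    apply incE_injective hG
    have h2 : incE hG (Additive.toMul x : KS hG.E p S) = Additive.toMul (y : Additive (OmS S)ˣ) ^ p := by
      rw [← kapS_coe hG hpS x, ← hy]
      rfl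
    rw [h2, ← hz, ← map_pow]
    rfl
  · rintro ⟨y, hy⟩
    refine ⟨⟨Additive.ofMul (incE hG y), by
      rw [mem_H0]; intro g; exact congrArg Additive.ofMul (uact_incE hG g y)⟩, ?_⟩
    apply Subtype.ext
    apply Subtype.ext
    apply Additive.toMul.injective
    rw [kapS_coe hG hpS x]
    have h3 : ((Additive.toMul x : KS hG.E p S) : hG.Eˣ) = y ^ p := hy.symm
    rw [h3, map_pow]
    rfl

/-! ### `H²` -/

variable (p) in
/-- class of `y` modulo `p`-th powers -/
noncomputable def mkQ (y : (OmS S)ˣ) : Additive (OmS S)ˣ ⧸ (pInc p hG.act).f.range :=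
  QuotientAddGroup.mk (Additive.ofMul y)

omit hp in
lemma mkQ_mul (y z : (OmS S)ˣ) : mkQ p hG (y * z) = mkQ p hG y + mkQ p hG z := rfl

omit hp in
lemma mkQ_one : mkQ p hG 1 = 0 := rfl

omit hp in
lemma mkQ_act (g : G') (y : (OmS S)ˣ) : qAct p hG g (mkQ p hG y) = mkQ p hG (uact hG g y) := rfl

omit hp in
lemma mkQ_pow (c : (OmS S)ˣ) : mkQ p hG (c ^ p) = 0 := by
  unfold mkQ
  rw [QuotientAddGroup.eq_zero_iff]
  exact ⟨⟨_, ⟨Additive.ofMul c, rfl⟩⟩, rfl⟩

omit hp in
lemma mkQ_eq_zero {y : (OmS S)ˣ} (h : mkQ p hG y = 0) : ∃ c : (OmS S)ˣ, c ^ p = y := by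
  unfold mkQ at h
  rw [QuotientAddGroup.eq_zero_iff] at h
  obtain ⟨⟨_, ⟨c, rfl⟩⟩, hc⟩ := h
  exact ⟨Additive.toMul c, congrArg Additive.toMul hc⟩

omit hp in
lemma exists_mkQ (t : Additive (OmS S)ˣ ⧸ (pInc p hG.act).f.range) : ∃ y, mkQ p hG y = t := by
  obtain ⟨a, rfl⟩ := QuotientAddGroup.mk_surjective t
  exact ⟨Additive.toMul a, rfl⟩

omit hp in
lemma mkQ_div (y z : (OmS S)ˣ) : mkQ p hG (y / z) = mkQ p hG y - mkQ p hG z := rfl

variable {hG}

lemma Rel.mkQ_eq (hpS : ∃ q ∈ S, (q : ℕ) = p) {y y' : (OmS S)ˣ} {f : Idele hG.E}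
    (h : Rel p hG y f) (h' : Rel p hG y' f) : mkQ p hG y = mkQ p hG y' := by
  have h1 := h.div h'
  rw [div_self'] at h1
  obtain ⟨c, hc⟩ := rel_one_left hpS h1
  rw [← sub_eq_zero, ← mkQ_div, ← hc, mkQ_pow]

/-- the element attached to an idele -/
noncomputable def elt (hpS : ∃ q ∈ S, (q : ℕ) = p) (f : Idele hG.E) : (OmS S)ˣ :=
  (exists_rel_left hpS f).choose

lemma rel_elt (hpS : ∃ q ∈ S, (q : ℕ) = p) (f : Idele hG.E) : Rel p hG (elt hpS f) f :=
  (exists_rel_left hpS f).choose_spec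

variable (hG)

/-- from ideles to `H⁰(Ωˣ/p)` -/
noncomputable def kapI (hpS : ∃ q ∈ S, (q : ℕ) = p) : Additive (Idele hG.E) →+ H0 (qAct p hG) where
  toFun f := ⟨mkQ p hG (elt hpS (Additive.toMul f)), by
    rw [mem_H0]
    intro g
    rw [mkQ_act]
    exact ((rel_elt hpS (Additive.toMul f)).uact g).mkQ_eq hpS (rel_elt hpS _)⟩
  map_zero' := by
    apply Subtype.ext
    exact (rel_elt hpS (1 : Idele hG.E)).mkQ_eq hpS Rel.one
  map_add' f g := by
    apply Subtype.ext
    exact (rel_elt hpS (Additive.toMul f * Additive.toMul g)).mkQ_eq hpS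
      ((rel_elt hpS (Additive.toMul f)).mul (rel_elt hpS (Additive.toMul g)))

lemma kapI_coe (hpS : ∃ q ∈ S, (q : ℕ) = p) (f : Additive (Idele hG.E)) :
    ((kapI hG hpS f : H0 (qAct p hG)) : Additive (OmS S)ˣ ⧸ (pInc p hG.act).f.range) =
      mkQ p hG (elt hpS (Additive.toMul f)) := rfl

lemma kapI_surjective (hpS : ∃ q ∈ S, (q : ℕ) = p) : Function.Surjective (kapI hG hpS) := by
  rintro ⟨t, ht⟩
  obtain ⟨y, rfl⟩ := exists_mkQ hG t
  rw [mem_H0] at ht
  obtain ⟨f, hf⟩ := exists_rel_right (p := p) (hG := hG) (y := y) (fun g => by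
    have h1 := ht g
    rw [mkQ_act, ← sub_eq_zero, ← mkQ_div] at h1
    obtain ⟨c, hc⟩ := mkQ_eq_zero hG h1
    exact ⟨c, by rw [hc, mul_div_cancel]⟩)
  refine ⟨Additive.ofMul f, ?_⟩
  apply Subtype.ext
  exact (rel_elt hpS f).mkQ_eq hpS hf

variable (S) in
/-- the subgroup `Kˣ · U_S · I^p` of the ideles -/
noncomputable def bigS (K : Type*) [Field K] [NumberField K] (p : ℕ) : Subgroup (Idele K) :=
  ((princ K).range ⊔ BS K S) ⊔ (powMonoidHom p : Idele K →* Idele K).range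

omit hp in
lemma rel_BS {f : Idele hG.E} (hf : f ∈ BS hG.E S) : Rel p hG 1 f := by
  rw [mem_BS'] at hf
  intro q hq Ψ
  refine ⟨0, ?_⟩
  rw [hf q hq]
  simp

lemma ker_quoS_comap (hpS : ∃ q ∈ S, (q : ℕ) = p) :
    ((quoS p hG).δ0 hG.smooth).ker.comap (kapI hG hpS) = (bigS S hG.E p).toAddSubgroup := by
  ext f
  rw [AddSubgroup.mem_comap, AddMonoidHom.mem_ker, (quoS p hG).exact_H0_right hG.smooth]
  constructor
  · rintro ⟨b, hb⟩
    obtain ⟨x, hx⟩ := exists_incE hG (y := Additive.toMul (b : Additive (OmS S)ˣ)) (fun g => by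
      exact congrArg Additive.toMul (mem_H0.1 b.2 g))
    have h1 : mkQ p hG (incE hG x) = mkQ p hG (elt hpS (Additive.toMul f)) := by
      rw [← kapI_coe, ← hb, hx]
      rfl
    rw [← sub_eq_zero, ← mkQ_div] at h1
    obtain ⟨c, hc⟩ := mkQ_eq_zero hG h1
    have h2 := ((rel_princ x).div (rel_elt hpS (Additive.toMul f))).mul
      (rel_pow_left (hG := hG) (p := p) c).inv
    rw [hc, mul_inv_cancel, inv_one, mul_one] at h2
    have h3 := rel_one_right h2.inv
    rw [inv_div] at h3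
    show Additive.toMul f ∈ bigS S hG.E p
    unfold bigS
    rw [sup_assoc]
    have h4 : Additive.toMul f = princ hG.E x * (Additive.toMul f / princ hG.E x) := by
      rw [mul_div_cancel]
    rw [h4]
    exact Subgroup.mul_mem_sup ⟨x, rfl⟩ h3
  · intro hf
    have hf' : Additive.toMul f ∈ bigS S hG.E p := hf
    unfold bigS at hf'
    obtain ⟨a, ha, _, ⟨g, rfl⟩, hag⟩ := Subgroup.mem_sup.1 hf'
    obtain ⟨_, ⟨x, rfl⟩, b, hb, hxb⟩ := Subgroup.mem_sup.1 ha
    have h1 : Rel p hG (incE hG x) (Additive.toMul f) := by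
      have h2 := ((rel_princ (p := p) (hG := hG) x).mul (rel_BS hG hb)).mul
        (rel_pow_right (hG := hG) (p := p) g)
      rw [mul_one, mul_one, hxb] at h2
      rw [← hag]
      exact h2
    refine ⟨⟨Additive.ofMul (incE hG x), by
      rw [mem_H0]; intro g; exact congrArg Additive.ofMul (uact_incE hG g x)⟩, ?_⟩
    apply Subtype.ext
    rw [kapI_coe]
    exact h1.mkQ_eq hpS (rel_elt hpS _)

omit hp in
lemma index_bigS (K : Type*) [Field K] [NumberField K] :
    (bigS S K p).index = (powMonoidHom p : ClS K S →* ClS K S).range.index := by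
  rw [← Subgroup.index_comap_of_surjective (powMonoidHom p : ClS K S →* ClS K S).range
    (QuotientGroup.mk'_surjective ((princ K).range ⊔ BS K S))]
  congr 1
  ext f
  rw [Subgroup.mem_comap]
  unfold bigS
  constructor
  · intro hf
    obtain ⟨a, ha, _, ⟨g, rfl⟩, hag⟩ := Subgroup.mem_sup.1 hf
    refine ⟨(QuotientGroup.mk' _ g : ClS K S), ?_⟩
    rw [← hag, map_mul]
    have h1 : (QuotientGroup.mk' ((princ K).range ⊔ BS K S)) a = 1 := by
      rw [QuotientGroup.mk'_apply, QuotientGroup.eq_one_iff]; exact ha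
    rw [h1, one_mul]
    rfl
  · rintro ⟨t, ht⟩
    obtain ⟨g, rfl⟩ := QuotientGroup.mk'_surjective _ t
    have h1 : (QuotientGroup.mk' ((princ K).range ⊔ BS K S)) (f / g ^ p) = 1 := by
      rw [map_div, map_pow, ← ht]
      exact div_self' _
    rw [QuotientGroup.mk'_apply, QuotientGroup.eq_one_iff] at h1
    have h2 : f = (f / g ^ p) * g ^ p := by simp
    rw [h2]
    exact Subgroup.mul_mem_sup h1 ⟨g, rfl⟩

theorem card_H1_pAct (hpS : ∃ q ∈ S, (q : ℕ) = p) :
    Nat.card (H1 L' (pAct p hG.act)) = (powMonoidHom p : ClS hG.E S →* ClS hG.E S).range.index := by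
  have h1 : Nat.card (H1 L' (pAct p hG.act)) = ((quoS p hG).δ0 hG.smooth).ker.index := by
    rw [AddSubgroup.index_ker, AddMonoidHom.range_eq_top.2 (quoS_δ0_surj hG), AddSubgroup.card_top]
  rw [h1, ← AddSubgroup.index_comap_of_surjective _ (kapI_surjective hG hpS), ker_quoS_comap hG hpS,
    Subgroup.index_toAddSubgroup, index_bigS]

theorem card_ker_H2 (hpS : ∃ q ∈ S, (q : ℕ) = p) :
    Nat.card ((muI hG hζ hfix).h2 L').ker =
      (powMonoidHom p : ClS hG.E S →* ClS hG.E S).range.index := by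
  rw [← card_H1_pAct hG hpS]
  symm
  refine Nat.card_congr (Equiv.ofBijective (fun x : H1 L' (pAct p hG.act) =>
    (⟨(kumS hG hζ hfix).δ1 hG.smooth x, by
      rw [AddMonoidHom.mem_ker]
      exact ((kumS hG hζ hfix).exact_H2_left hG.smooth _).2 ⟨x, rfl⟩⟩ :
        ((muI hG hζ hfix).h2 L').ker)) ⟨?_, ?_⟩)
  · intro x y h
    exact kumS_δ1_inj hG hζ hfix (congrArg Subtype.val h)
  · rintro ⟨y, hy⟩
    rw [AddMonoidHom.mem_ker] at hy
    obtain ⟨x, hx⟩ := ((kumS hG hζ hfix).exact_H2_left hG.smooth _).1 hy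
    exact ⟨x, Subtype.ext hx⟩

end Fermat.Agent.PTGlob
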