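import Fermat.Agent.PTGlob.KumCount
import Fermat.Agent.PTGlob.Bridge

/-!
# Cosets and embeddings
-/

set_option autoImplicit false

open scoped Pointwise NumberField

namespace Fermat.Agent.PTGlob

open Fermat.Agent.PT Fermat.Agent.PTLocal Fermat.Agent.CFT Fermat.Agent.CFT6

-- the frozen algebra structure on `ℚ̄`, and the induced ones on subfields
attribute [-instance] DivisionRing.toRatAlgebra
noncomputable local instance instAlgebraQb7 : Algebra ℚ (AlgebraicClosure ℚ) :=
  DivisionRing.toRatAlgebra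

variable {S : Finset Nat.Primes} {V : Subgroup GQ} (hV : IsOpenSub (PTC.sL S) V)

/-- Galois type structure of an open subgroup -/
noncomputable abbrev lgV : LGal ℚ (OmS S) ((PTC.sL S).sub V) := (lgSL S).sub V hV

lemma mem_V_iff (g : GQ) : g ∈ V ↔ ∀ x : (lgV hV).E, g (ιE (lgV hV) x) = ιE (lgV hV) x := by
  constructor
  · intro hg x
    have h1 := (lgV hV).mem_E.1 x.2 ⟨g, hg⟩
    have h2 := congrArg (fun z : OmS S => (z : Qb)) h1
    have h3 : (((lgV hV).j ⟨g, hg⟩ (x : OmS S) : OmS S) : Qb) = g ((x : OmS S) : Qb) :=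
      jS_apply g _
    exact h3.symm.trans h2
  · intro h
    obtain ⟨v, hv⟩ := (lgV hV).exists_of_fix (jS S g) (fun x hx => by
      apply Subtype.ext
      rw [jS_apply]
      exact h ⟨x, hx⟩)
    obtain ⟨N, hN, hNV⟩ := hV
    have h1 : (v : GQ)⁻¹ * g ∈ N := by
      apply (lgSL S).ker_le N hN
      rw [map_mul, map_inv]
      have h2 : (lgSL S).j (v : GQ) = jS S g := hv
      rw [h2]
      exact inv_mul_cancel _
    have h2 := V.mul_mem v.2 (hNV h1)
    rwa [mul_inv_cancel_left] at h2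

variable (q : Nat.Primes)

/-- the embedding attached to a coset -/
noncomputable def cosetEmb : GQ ⧸ V → Emb (lgV hV).E q :=
  Quotient.lift (fun g : GQ => ((e0 q).comp (g : Qb →+* Qb)).comp (ιE (lgV hV))) (by
    intro g g' h
    have h' : g⁻¹ * g' ∈ V := QuotientGroup.leftRel_apply.1 h
    rw [mem_V_iff hV] at h'
    ext x
    show e0 q (g (ιE (lgV hV) x)) = e0 q (g' (ιE (lgV hV) x))
    congr 1
    have h1 := h' x
    rw [AlgEquiv.mul_apply, AlgEquiv.aut_inv, AlgEquiv.symm_apply_eq] at h1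
    exact h1.symm)

lemma cosetEmb_mk (g : GQ) : cosetEmb hV q (g : GQ ⧸ V) =
    ((e0 q).comp (g : Qb →+* Qb)).comp (ιE (lgV hV)) := rfl

lemma cosetEmb_bijective : Function.Bijective (cosetEmb hV q) := by
  constructor
  · intro a b h
    obtain ⟨g, rfl⟩ := QuotientGroup.mk_surjective a
    obtain ⟨g', rfl⟩ := QuotientGroup.mk_surjective b
    rw [cosetEmb_mk, cosetEmb_mk] at h
    rw [QuotientGroup.eq, mem_V_iff hV]
    intro x
    have h1 : e0 q (g (ιE (lgV hV) x)) = e0 q (g' (ιE (lgV hV) x)) := RingHom.congr_fun h x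
    have h2 := (e0 q).injective h1
    rw [AlgEquiv.mul_apply, AlgEquiv.aut_inv, AlgEquiv.symm_apply_eq]
    exact h2.symm
  · intro φ
    obtain ⟨Ψ, hΨ⟩ := exists_ext (ιE (lgV hV)) φ
    obtain ⟨h, rfl⟩ := exists_comp (e0 q) Ψ
    exact ⟨(h : GQ ⧸ V), hΨ⟩

lemma cosetEmb_smul (τ : Gq q) (a : GQ ⧸ V) :
    cosetEmb hV q (cosetAct V (localGaloisToGlobal (q : ℕ) τ) a) = τ • cosetEmb hV q a := by
  obtain ⟨g, rfl⟩ := QuotientGroup.mk_surjective a
  rw [cosetAct_mk, cosetEmb_mk, cosetEmb_mk]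
  ext x
  exact padicEmbedding_localGaloisToGlobal (q : ℕ) τ (g (ιE (lgV hV) x))

/-- the number of orbits -/
lemma card_orb : Nat.card (PT.Orb ((cosetAct V).comp (ExtCitation.primeLocalToGlobal q))) =
    Nat.card (CFT6.Orb (lgV hV).E q) := by
  refine Nat.card_congr (Quotient.congr (Equiv.ofBijective _ (cosetEmb_bijective hV q)) ?_)
  intro a b
  show (∃ g : Gq q, cosetAct V (localGaloisToGlobal (q : ℕ) g) a = b) ↔
    cosetEmb hV q a ∈ MulAction.orbit (Gq q) (cosetEmb hV q b)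
  constructor
  · rintro ⟨g, rfl⟩
    rw [cosetEmb_smul]
    exact ⟨g⁻¹, by simp⟩
  · rintro ⟨g, hg⟩
    refine ⟨g⁻¹, (cosetEmb_bijective hV q).1 ?_⟩
    rw [cosetEmb_smul, ← hg]
    simp

lemma s_eq : (PTC.ptd S).s V = ∑ q ∈ S, Nat.card (CFT6.Orb (lgV hV).E q) := by
  unfold PTData.s
  rw [← Finset.sum_coe_sort S]
  exact Finset.sum_congr rfl fun v _ => card_orb hV v.1

lemma index_eq_card_emb : V.index = Nat.card (Emb (lgV hV).E q) := by
  rw [Subgroup.index]
  exact Nat.card_congr (Equiv.ofBijective _ (cosetEmb_bijective hV q))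

lemma card_emb {K : Type*} [Field K] [NumberField K] :
    Nat.card (Emb K q) = @Module.finrank ℚ K _ _ DivisionRing.toRatAlgebra.toModule := by
  let _ : Algebra ℚ K := DivisionRing.toRatAlgebra
  let _ : Algebra ℚ (Cq q) := DivisionRing.toRatAlgebra
  rw [← AlgHom.card ℚ K (Cq q), ← Nat.card_eq_fintype_card]
  exact Nat.card_congr (RingHom.equivRatAlgHom K (Cq q))

end Fermat.Agent.PTGlob
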